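/-
P-SS row 1032 (SSH-8e, CUSP-GAUSS; leaf of row 649, helper67), helper89.

`modelCuspGauss M q hq hqM : Fermat.Agent.H67.SS.ModelCuspGaussStatement M q`:
the Gauss valuation ring `V = V_∞` of `q`-expansions at level `M q` satisfies
`V ∩ W⁻¹ V = C(x⁻¹)`, `α⁻¹ V = C'(x'⁻¹)`, `ϖ` is a uniformiser of `V`, the Frobenius congruence
`j(t^q) ≡ j(t)^q`, and FRAC.

Plugging of landed theorems: `H41.SS.mem_gaussClosure_of_two` (`H66.SS.modelQExp2`),
`H55.SS.modelGaussConverse`, `H41.SS.mem_gaussValM_of_mem_gaussClosure`,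
`H41.SS.mem_gaussClosure_of_mem_gaussValM` (`H48.QExp.modelQExp_j`),
`H41.SS.alpha_mem_gaussValM_iff`, `H89.gaussClosureStatement` (`C(x⁻¹) = C(x)`),
`H57.SS.frob`, `H66.SS.modelFrac41`.
-/
import Mathlib
import Fermat.Agent.H67.SS.CuspInterfaces2
import Fermat.Agent.H41.SS.OrdFinal
import Fermat.Agent.H66.SS.Frac41
import Fermat.Agent.H57.SS.Frob
import Fermat.Agent.H89.KLGauss

set_option autoImplicit false
set_option linter.style.haveILetI false
set_option linter.unusedSectionVars false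

noncomputable section

namespace Fermat.Agent.H89.SS

open Polynomial ModularCurve
open Fermat.Agent.H22.KL Fermat.Agent.H45 Fermat.Agent.H7.SS Fermat.Agent.H48.QExp
open Fermat.Agent.H82.SS Fermat.Agent.H41.SS

section Frob

variable {K₁ : Type} [Field K₁] [Algebra ℚ K₁] {A₀ : Type} [CommRing A₀] [IsDomain A₀]
  [IsDiscreteValuationRing A₀] [Algebra A₀ K₁] [IsFractionRing A₀ K₁]

/-- **Frobenius congruence**: `j(t^q) - j(t)^q` lies in the maximal ideal of the Gauss valuation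
ring of any intermediate field containing it. -/
theorem cg_frob_inM (q : ℕ) [NeZero q] (hq : q.Prime) (hqA : ¬ IsUnit ((q : ℕ) : A₀))
    (E : IntermediateField K₁ (LaurentSeries K₁))
    (hE : qExpand K₁ q (jqModC K₁) - jqModC K₁ ^ q ∈ E) :
    InM (A₀ := A₀) E (qExpand K₁ q (jqModC K₁) - jqModC K₁ ^ q) := by
  have hchar : CharP (IsLocalRing.ResidueField A₀) q := Fermat.Agent.H66.SS.ssa_charP q hq hqA
  have hfrobk : qExpand (IsLocalRing.ResidueField A₀) q (jqModC (IsLocalRing.ResidueField A₀)) =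
      jqModC (IsLocalRing.ResidueField A₀) ^ q := by
    have h3 := Fermat.Agent.H57.SS.frob (IsLocalRing.ResidueField A₀) q hq hchar (jqModC ℤ)
    rwa [coeffMap_jqModC] at h3
  set uA : LaurentSeries A₀ := qExpand A₀ q (jqModC A₀) - jqModC A₀ ^ q with huA
  have hucoe : gIota K₁ A₀ uA = qExpand K₁ q (jqModC K₁) - jqModC K₁ ^ q := by
    rw [huA, map_sub, map_pow, coeffMap_qExpand, coeffMap_jqModC]
  have hur : gRho A₀ uA = 0 := by
    rw [huA, map_sub, map_pow, coeffMap_qExpand, coeffMap_jqModC, hfrobk, sub_self]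
  refine ⟨uA, 1, ?_, ?_, hur, ?_, ?_⟩
  · rw [hucoe]
    exact hE
  · rw [map_one]
    exact E.one_mem
  · rw [map_one]
    exact one_ne_zero
  · rw [map_one, mul_one, hucoe]

end Frob

/-- **[SSH-8e] CUSP-GAUSS.** -/
theorem modelCuspGauss (M q : ℕ) [NeZero M] [NeZero q] (hq : q.Prime) (hqM : ¬ q ∣ M) :
    Fermat.Agent.H67.SS.ModelCuspGaussStatement M q := by
  intro K₁ _ _ _ A₀ _ _ _ _ _ _ _ _ _ hqA ϖ hϖ x' hx' W hW
  haveI : NeZero (M * q) := ⟨Nat.mul_ne_zero (NeZero.ne M) (NeZero.ne q)⟩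
  have hinj : Function.Injective (algebraMap A₀ (ModelField K₁ (M * q))) := by
    rw [IsScalarTower.algebraMap_eq A₀ K₁ (ModelField K₁ (M * q))]
    exact (algebraMap K₁ (ModelField K₁ (M * q))).injective.comp (IsFractionRing.injective A₀ K₁)
  have hinj' : Function.Injective (algebraMap A₀ (ModelField K₁ M)) := by
    rw [IsScalarTower.algebraMap_eq A₀ K₁ (ModelField K₁ M)]
    exact (algebraMap K₁ (ModelField K₁ M)).injective.comp (IsFractionRing.injective A₀ K₁)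
  have hx : ((heckeAlphaBar K₁ M q x' : ModelField K₁ (M * q)) : LaurentSeries K₁)
      = coeffEmb K₁ jq := by
    rw [coe_heckeAlphaBar, hx']
  have hxtr : Transcendental A₀ (heckeAlphaBar K₁ M q x') :=
    Fermat.Agent.H58.modelTranscendental_jq (M * q) K₁ A₀ _ hx
  have hx'tr : Transcendental A₀ x' :=
    Fermat.Agent.H58.modelTranscendental_jq M K₁ A₀ x' hx'
  have hC : gaussClosure A₀ (ModelField K₁ (M * q)) ϖ (heckeAlphaBar K₁ M q x')⁻¹
      = gaussClosure A₀ (ModelField K₁ (M * q)) ϖ (heckeAlphaBar K₁ M q x') :=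
    (Fermat.Agent.H89.gaussClosureStatement A₀ (ModelField K₁ (M * q)) hinj ϖ hϖ _ hxtr).2.2
  have hC' : gaussClosure A₀ (ModelField K₁ M) ϖ x'⁻¹ = gaussClosure A₀ (ModelField K₁ M) ϖ x' :=
    (Fermat.Agent.H89.gaussClosureStatement A₀ (ModelField K₁ M) hinj' ϖ hϖ _ hx'tr).2.2
  refine ⟨gaussValM K₁ A₀ (M * q), ?_, ?_, ?_, ?_, ?_, ?_, ?_, ?_⟩
  · -- (1) `V ∩ W⁻¹ V ⊆ C(x⁻¹)`
    intro z hz hWz
    rw [hC]
    exact mem_gaussClosure_of_two M q hq hqM hqA hϖ _ hx W hW z hz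
      ((mem_gaussValZero_iff W z).2 hWz)
  · -- (2) `C(x⁻¹) ⊆ V ∩ W⁻¹ V`
    intro z hz
    rw [hC] at hz
    refine ⟨mem_gaussValM_of_mem_gaussClosure (M * q) hϖ _ hx z hz, ?_⟩
    obtain ⟨-, ⟨a', b', ha', hb', hbu', hab'⟩⟩ :=
      Fermat.Agent.H55.SS.modelGaussConverse M q K₁ A₀ hqA ϖ hϖ _ hx W hW z hz
    rw [mem_gaussValM_iff]
    refine inV_of_quot _ (W a').2 (W b').2 ha' hb' hbu' ?_
    have h1 : W z * W b' = W a' := by rw [← map_mul, hab']
    exact congrArg Subtype.val h1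
  · -- (3) `α⁻¹ V ⊆ C'(x'⁻¹)`
    intro z' hz'
    rw [hC']
    exact mem_gaussClosure_of_mem_gaussValM M q hq hqM hqA hϖ x' hx' z'
      ((alpha_mem_gaussValM_iff M q K₁ A₀ z').1 hz')
  · -- (4) `C'(x'⁻¹) ⊆ α⁻¹ V`
    intro z' hz'
    rw [hC'] at hz'
    exact (alpha_mem_gaussValM_iff M q K₁ A₀ z').2
      (mem_gaussValM_of_mem_gaussClosure M hϖ x' hx' z' hz')
  · -- (5) `ϖ ∈ 𝔪_V`
    exact pi_mem_nonunits_gaussValM hϖ
  · -- (6) `ϖ` generates `𝔪_V`
    intro z hz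
    exact div_pi_mem_gaussValM hϖ z hz
  · -- (7) Frobenius congruence
    rw [mem_nonunits_gaussValM_iff]
    have hcoe : ((heckeBetaBar K₁ M q x' - heckeAlphaBar K₁ M q x' ^ q :
        ModelField K₁ (M * q)) : LaurentSeries K₁)
        = qExpand K₁ q (jqModC K₁) - jqModC K₁ ^ q := by
      have h1 : ((heckeBetaBar K₁ M q x' : ModelField K₁ (M * q)) : LaurentSeries K₁)
          = qExpand K₁ q (jqModC K₁) := by
        rw [coe_heckeBetaBar, hx', coeffEmb_jq]
      have h2 : ((heckeAlphaBar K₁ M q x' : ModelField K₁ (M * q)) : LaurentSeries K₁)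
          = jqModC K₁ := by
        rw [hx, coeffEmb_jq]
      rw [← h1, ← h2]
      rfl
    rw [hcoe]
    apply cg_frob_inM q hq hqA
    rw [← hcoe]
    exact Subtype.mem _
  · -- (8) FRAC
    intro z hz
    obtain ⟨z', hz'V, hz'M⟩ :=
      Fermat.Agent.H66.SS.modelFrac41 M q hq hqM K₁ A₀ hqA (z : LaurentSeries K₁)
        ((mem_gaussValM_iff z).1 hz)
    have hz'E : z' ∈ laurentBaseChange K₁ (modularFunctionFieldFull M) := InV.mem hz'V
    refine ⟨⟨z', hz'E⟩, ?_, ?_⟩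
    · rw [alpha_mem_gaussValM_iff, mem_gaussValM_iff]
      exact hz'V
    · rw [mem_nonunits_gaussValM_iff]
      have hcoe : ((z - heckeAlphaBar K₁ M q ⟨z', hz'E⟩ : ModelField K₁ (M * q)) :
          LaurentSeries K₁) = (z : LaurentSeries K₁) - z' := by
        show (z : LaurentSeries K₁) - ((heckeAlphaBar K₁ M q ⟨z', hz'E⟩ :
          ModelField K₁ (M * q)) : LaurentSeries K₁) = _
        rw [coe_heckeAlphaBar]
      rw [hcoe]
      exact hz'M

end Fermat.Agent.H89.SS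

end
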